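import Mathlib

set_option autoImplicit false

/-!
# Strong approximation in a number field, and finiteness of the class group, in adelic form
-/

namespace Fermat.Agent.LT.Fin

open IsDedekindDomain IsDedekindDomain.HeightOneSpectrum WithZero

section General

variable {R : Type*} [CommRing R] [IsDedekindDomain R] {K : Type*} [Field K] [Algebra R K]
  [IsFractionRing R K]

theorem finite_lt_one {x : K} (hx : x ≠ 0) :
    {v : HeightOneSpectrum R | v.valuation K x < 1}.Finite := by
  refine (HeightOneSpectrum.Support.finite (R := R) (x⁻¹)).subset fun v hv => ?_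
  change 1 < v.valuation K x⁻¹
  rw [map_inv₀]
  exact (one_lt_inv₀ (by simpa [zero_lt_iff] using hx)).2 hv

theorem finite_ne_one {x : K} (hx : x ≠ 0) :
    {v : HeightOneSpectrum R | v.valuation K x ≠ 1}.Finite := by
  refine ((HeightOneSpectrum.Support.finite (R := R) x).union (finite_lt_one hx)).subset
    fun v hv => ?_
  rcases lt_or_gt_of_ne hv with h | h
  · exact Or.inr h
  · exact Or.inl h

/-- approximation of finitely many elements of `K` by an element of `K`, integral elsewhere -/
theorem exists_approx_field (S : Finset (HeightOneSpectrum R)) (r : HeightOneSpectrum R → K)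
    (n : ℕ) : ∃ a : K, (∀ v ∈ S, v.valuation K (a - r v) ≤ exp (-(n : ℤ))) ∧
      ∀ v ∉ S, v.valuation K a ≤ 1 := by
  classical
  obtain ⟨N, hN⟩ := IsLocalization.exist_integer_multiples_of_finset (nonZeroDivisors R)
    (S.image r)
  have hN0 : (N : R) ≠ 0 := nonZeroDivisors.ne_zero N.2
  have hNK : algebraMap R K N ≠ 0 := by
    rwa [Ne, FaithfulSMul.algebraMap_eq_zero_iff]
  choose c hc using fun v : S => hN (r v) (Finset.mem_image_of_mem _ v.2)
  set T : Finset (HeightOneSpectrum R) := S ∪ (finite_lt_one hNK).toFinset with hT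
  -- exponents of `N`
  have hm : ∀ v : HeightOneSpectrum R, ∃ m : ℕ, v.valuation K (algebraMap R K N) = exp (-(m : ℤ)) := by
    intro v
    have h1 : v.valuation K (algebraMap R K N) ≤ 1 := v.valuation_le_one _
    have h0 : v.valuation K (algebraMap R K N) ≠ 0 := by simp
    have h2 := exp_log h0
    rw [← h2, ← exp_zero, exp_le_exp] at h1
    exact ⟨(-log (v.valuation K (algebraMap R K N))).toNat, by
      rw [Int.toNat_of_nonneg (by omega), neg_neg, h2]⟩
  choose m hm using hm
  obtain ⟨y, hy⟩ := exists_forall_sub_mem_ideal (s := T) (fun v => v.asIdeal)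
    (fun v => n + m v) (fun v _ => v.prime)
    (fun v _ w _ h hvw => h (HeightOneSpectrum.ext hvw))
    (fun v => if h : v.1 ∈ S then c ⟨v.1, h⟩ else 0)
  refine ⟨algebraMap R K y / algebraMap R K N, fun v hv => ?_, fun v hv => ?_⟩
  · have h1 := hy v (Finset.mem_union_left _ hv)
    rw [dif_pos hv] at h1
    have h2 : v.valuation K (algebraMap R K (y - c ⟨v, hv⟩)) ≤ exp (-((n + m v : ℕ) : ℤ)) := by
      rw [valuation_of_algebraMap, intValuation_le_pow_iff_mem]
      exact h1
    have h3 : algebraMap R K y / algebraMap R K N - r v =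
        algebraMap R K (y - c ⟨v, hv⟩) / algebraMap R K N := by
      have h4 : algebraMap R K (c ⟨v, hv⟩) = algebraMap R K N * r v := by
        rw [hc ⟨v, hv⟩]
        exact Algebra.smul_def _ _
      rw [map_sub, h4]
      field_simp
    rw [h3, map_div₀, hm v, div_le_iff₀ (by simp), ← exp_add]
    refine h2.trans (le_of_eq ?_)
    congr 1
    push_cast
    ring
  · by_cases hvT : v ∈ T
    · have h1 := hy v hvT
      rw [dif_neg hv, sub_zero] at h1
      have h2 : v.valuation K (algebraMap R K y) ≤ exp (-((n + m v : ℕ) : ℤ)) := by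
        rw [valuation_of_algebraMap, intValuation_le_pow_iff_mem]
        exact h1
      rw [map_div₀, hm v, div_le_iff₀ (by simp), one_mul]
      refine h2.trans ?_
      rw [exp_le_exp]
      push_cast
      omega
    · have h1 : v.valuation K (algebraMap R K N) = 1 := by
        refine le_antisymm (v.valuation_le_one _) (not_lt.1 fun h => hvT ?_)
        rw [hT]
        exact Finset.mem_union_right _ ((finite_lt_one hNK).mem_toFinset.2 h)
      rw [map_div₀, h1, div_one]
      exact v.valuation_le_one _

theorem valued_coe_K (v : HeightOneSpectrum R) (x : K) :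
    Valued.v (algebraMap K (v.adicCompletion K) x) = v.valuation K x :=
  HeightOneSpectrum.valuedAdicCompletion_eq_valuation' v x

theorem exists_valuation_eq (v : HeightOneSpectrum R) (n : ℤ) :
    ∃ c : K, c ≠ 0 ∧ v.valuation K c = exp n := by
  obtain ⟨c, hc⟩ := v.valuation_surjective K (exp n)
  refine ⟨c, ?_, hc⟩
  rintro rfl
  rw [map_zero] at hc
  exact exp_ne_zero hc.symm

theorem isOpen_ball_exp (v : HeightOneSpectrum R) (n : ℤ) :
    IsOpen {x : v.adicCompletion K | Valued.v x ≤ exp n} := by
  obtain ⟨c, hc0, hc⟩ := exists_valuation_eq (K := K) v n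
  have hc1 : algebraMap K (v.adicCompletion K) c ≠ 0 := by simpa using hc0
  have h1 : {x : v.adicCompletion K | Valued.v x ≤ exp n} =
      (fun x => (algebraMap K (v.adicCompletion K) c)⁻¹ * x) ⁻¹'
        (Valued.integer (v.adicCompletion K) : Set (v.adicCompletion K)) := by
    refine Set.ext fun x => ?_
    change Valued.v x ≤ exp n ↔
      (algebraMap K (v.adicCompletion K) c)⁻¹ * x ∈ Valued.integer (v.adicCompletion K)
    rw [Valued.integer, Valuation.mem_integer_iff, map_mul, map_inv₀, valued_coe_K, hc,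
      inv_mul_le_iff₀ (by simp), mul_one]
  rw [h1]
  exact (Valued.isOpen_integer (v.adicCompletion K)).preimage (continuous_const.mul continuous_id)

/-- **strong approximation** -/
theorem exists_approx (S : Finset (HeightOneSpectrum R))
    (r : ∀ v : HeightOneSpectrum R, v.adicCompletion K) (n : ℕ) :
    ∃ a : K, (∀ v ∈ S, Valued.v (algebraMap K (v.adicCompletion K) a - r v) ≤ exp (-(n : ℤ))) ∧
      ∀ v ∉ S, v.valuation K a ≤ 1 := by
  have h1 : ∀ v : HeightOneSpectrum R, ∃ b : K,
      Valued.v (algebraMap K (v.adicCompletion K) b - r v) ≤ exp (-(n : ℤ)) := by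
    intro v
    have ho : IsOpen {x : v.adicCompletion K | Valued.v (x - r v) ≤ exp (-(n : ℤ))} :=
      (isOpen_ball_exp v (-(n : ℤ))).preimage (continuous_id.sub continuous_const)
    obtain ⟨b, hb⟩ := (HeightOneSpectrum.denseRange_algebraMap (K := K) v).exists_mem_open
      ho ⟨r v, by simp⟩
    exact ⟨b, hb⟩
  choose b hb using h1
  obtain ⟨a, ha, ha'⟩ := exists_approx_field S b n
  refine ⟨a, fun v hv => ?_, ha'⟩
  have h2 : algebraMap K (v.adicCompletion K) a - r v =
      algebraMap K (v.adicCompletion K) (a - b v) + (algebraMap K (v.adicCompletion K) (b v) - r v) := by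
    rw [map_sub]; ring
  rw [h2]
  refine (Valuation.map_add _ _ _).trans (max_le ?_ (hb v))
  exact (HeightOneSpectrum.valuedAdicCompletion_eq_valuation' v (a - b v)).trans_le (ha v hv)

open scoped nonZeroDivisors

theorem valuation_eq_exp_neg_count (v : HeightOneSpectrum R) {x : K} (hx : x ≠ 0) :
    v.valuation K x = exp (-(FractionalIdeal.count K v (FractionalIdeal.spanSingleton R⁰ x))) := by
  classical
  obtain ⟨n, d, hd, rfl⟩ := IsFractionRing.div_surjective (A := R) x
  have hd0 : d ≠ 0 := nonZeroDivisors.ne_zero hd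
  have hdK : algebraMap R K d ≠ 0 := by rwa [Ne, FaithfulSMul.algebraMap_eq_zero_iff]
  have hn0 : n ≠ 0 := by
    rintro rfl
    exact hx (by rw [map_zero, zero_div])
  have h0 : FractionalIdeal.spanSingleton R⁰ (algebraMap R K n / algebraMap R K d) ≠ 0 := by
    rwa [Ne, FractionalIdeal.spanSingleton_eq_zero_iff]
  rw [FractionalIdeal.count_well_defined K v h0 (a := d) (J := Ideal.span {n}) (by
    rw [FractionalIdeal.coeIdeal_span_singleton, FractionalIdeal.spanSingleton_mul_spanSingleton,
      div_eq_inv_mul]), map_div₀, valuation_of_algebraMap, valuation_of_algebraMap,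
    v.intValuation_if_neg hn0, v.intValuation_if_neg hd0, ← exp_sub]
  congr 1
  ring

/-- divisors modulo principal divisors are finite -/
theorem exists_divisor_reps [Finite (ClassGroup R)] : ∃ C : Set (HeightOneSpectrum R → ℤ),
    C.Finite ∧ (∀ c ∈ C, {v | c v ≠ 0}.Finite) ∧
    ∀ m : HeightOneSpectrum R → ℤ, {v | m v ≠ 0}.Finite → ∃ c ∈ C, ∃ a : K, a ≠ 0 ∧
      ∀ v, v.valuation K a = exp (m v - c v) := by
  classical
  let I : (HeightOneSpectrum R → ℤ) → FractionalIdeal R⁰ K := fun m =>
    ∏ᶠ v : HeightOneSpectrum R, (v.asIdeal : FractionalIdeal R⁰ K) ^ m v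
  have hI : ∀ m, I m ≠ 0 := fun m => by
    refine finprod_induction (p := fun J : FractionalIdeal R⁰ K => J ≠ 0) one_ne_zero
      (fun _ _ h h' => mul_ne_zero h h') fun v => zpow_ne_zero _ ?_
    exact FractionalIdeal.coeIdeal_ne_zero.mpr v.ne_bot
  let J : (HeightOneSpectrum R → ℤ) → (FractionalIdeal R⁰ K)ˣ := fun m => Units.mk0 (I m) (hI m)
  let P : ClassGroup R → (HeightOneSpectrum R → ℤ) → Prop := fun γ m =>
    {v | m v ≠ 0}.Finite ∧ ClassGroup.mk K (J m) = γ
  let ch : ClassGroup R → (HeightOneSpectrum R → ℤ) := fun γ =>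
    if h : ∃ m, P γ m then h.choose else 0
  refine ⟨Set.range ch, Set.finite_range _, ?_, fun m hm => ?_⟩
  · rintro _ ⟨γ, rfl⟩
    by_cases h : ∃ m, P γ m
    · have : ch γ = h.choose := dif_pos h
      rw [this]
      exact h.choose_spec.1
    · have : ch γ = 0 := dif_neg h
      simp [this]
  · have h : ∃ m', P (ClassGroup.mk K (J m)) m' := ⟨m, hm, rfl⟩
    have hc : ch (ClassGroup.mk K (J m)) = h.choose := dif_pos h
    refine ⟨_, ⟨ClassGroup.mk K (J m), rfl⟩, ?_⟩
    rw [hc]
    set c := h.choose
    have hcf : {v | c v ≠ 0}.Finite := h.choose_spec.1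
    have hcm : ClassGroup.mk K (J c) = ClassGroup.mk K (J m) := h.choose_spec.2
    have h1 : ClassGroup.mk K (J c * (J m)⁻¹) = 1 := by
      rw [map_mul, hcm, map_inv, mul_inv_cancel]
    rw [ClassGroup.mk_eq_one_iff, FractionalIdeal.isPrincipal_iff] at h1
    obtain ⟨x, hx⟩ := h1
    have hx' : I c * (I m)⁻¹ = FractionalIdeal.spanSingleton R⁰ x := by
      rw [← hx, Units.val_mul, Units.val_inv_eq_inv_val]
      rfl
    have hx0 : x ≠ 0 := by
      rintro rfl
      rw [FractionalIdeal.spanSingleton_zero] at hx'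
      exact mul_ne_zero (hI c) (inv_ne_zero (hI m)) hx'
    refine ⟨x, hx0, fun v => ?_⟩
    rw [valuation_eq_exp_neg_count v hx0, ← hx', FractionalIdeal.count_mul K v (hI c)
      (inv_ne_zero (hI m)), FractionalIdeal.count_inv, FractionalIdeal.count_finprod K v c hcf,
      FractionalIdeal.count_finprod K v m hm]
    congr 1
    ring

end General

end Fermat.Agent.LT.Fin
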